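import Fermat.Agent.Poincare.LevelOne

/-!
# Bases of vector valued forms

Vector valued forms are free over the level one forms on lifts of a weight-adapted basis of
values at `ρ`; the values of such a basis are independent at every point.
-/

set_option autoImplicit false

noncomputable section

open UpperHalfPlane hiding I
open Filter Topology Complex EisensteinSeries ModularForm
open scoped MatrixGroups Manifold

namespace Fermat.Agent.Poincare

variable {X : Type} [MulAction SL(2, ℤ) X] {cusp : Bool}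

local notation "ρ₀" => UpperHalfPlane.ρ

lemma E₆_ρ_ne_zero : E₆ ρ₀ ≠ 0 := fun h ↦ Genus.not_E₄_E₆_eq_zero _ ⟨Genus.E₄_ρ, h⟩

lemma E₄_I_ne_zero : E₄ UpperHalfPlane.I ≠ 0 :=
  fun h ↦ Genus.not_E₄_E₆_eq_zero _ ⟨h, Genus.E₆_I⟩

/-- The automorphy factor of `S T` at `ρ`. -/
def rotFactor : ℂ := (ρ₀ : ℂ) + 1

lemma denom_ST_ρ : denom (ModularGroup.S * ModularGroup.T : SL(2, ℤ)) (ρ₀ : ℂ) = rotFactor := by
  rw [ModularGroup.denom_apply, rotFactor]
  simp [Matrix.SpecialLinearGroup.coe_mul, ModularGroup.coe_S, ModularGroup.coe_T]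

lemma rotFactor_sq : rotFactor ^ 2 = (ρ₀ : ℂ) := by
  unfold rotFactor; linear_combination UpperHalfPlane.ρ_sq

lemma rotFactor_six : rotFactor ^ 6 = 1 := by
  rw [pow_mul _ 2 3, rotFactor_sq]
  linear_combination ((ρ₀ : ℂ) - 1) * UpperHalfPlane.ρ_sq

lemma rotFactor_ne_zero : rotFactor ≠ 0 := fun h ↦ by simpa [h] using rotFactor_six

lemma rotFactor_zpow_eq {a b : ℤ} (ha : Even a) (hb : Even b)
    (h : rotFactor ^ a = rotFactor ^ b) : 6 ∣ a - b := by
  obtain ⟨d, hd⟩ : ∃ d, a - b = 2 * d := (ha.sub hb).two_dvd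
  have h1 : rotFactor ^ (a - b) = 1 := by
    rw [zpow_sub₀ rotFactor_ne_zero, h, div_self (zpow_ne_zero _ rotFactor_ne_zero)]
  rw [hd, zpow_mul, zpow_two, ← sq, rotFactor_sq] at h1
  have h3 : (ρ₀ : ℂ) ^ 3 = 1 := by
    linear_combination ((ρ₀ : ℂ) - 1) * UpperHalfPlane.ρ_sq
  have hne : (ρ₀ : ℂ) ≠ 1 := fun e ↦ by
    have := UpperHalfPlane.ρ_sq
    rw [e] at this
    norm_num at this
  have h0 : (ρ₀ : ℂ) ≠ 0 := fun e ↦ by rw [e] at h3; norm_num at h3
  have hr : (ρ₀ : ℂ) ^ (d % 3).toNat = 1 := by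
    rw [← zpow_natCast, Int.toNat_of_nonneg (Int.emod_nonneg _ (by norm_num)),
      Int.emod_def, zpow_sub₀ h0, zpow_mul, zpow_ofNat, h3, one_zpow, div_one, h1]
  rcases (show (d % 3).toNat = 0 ∨ (d % 3).toNat = 1 ∨ (d % 3).toNat = 2 by omega) with e | e | e
  · omega
  · rw [e, pow_one] at hr; exact absurd hr hne
  · rw [e] at hr
    exact absurd (by linear_combination h3 - (ρ₀ : ℂ) * hr) hne

/-- Normalised value at `ρ` of a form of weight `k`. -/
def rhoValue (k : ℤ) : (X → ℍ → ℂ) →ₗ[ℂ] (X → ℂ) where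
  toFun F x := (E₆ ρ₀ ^ (k / 6))⁻¹ * F x ρ₀
  map_add' F G := by funext x; simp [mul_add]
  map_smul' c F := by funext x; simp; ring

omit [MulAction SL(2, ℤ) X] in
lemma rhoValue_apply (k : ℤ) (F : X → ℍ → ℂ) (x : X) :
    rhoValue k F x = (E₆ ρ₀ ^ (k / 6))⁻¹ * F x ρ₀ := rfl

/-- Translation by `S T` on functions on `X`. -/
def rotOp : (X → ℂ) →ₗ[ℂ] (X → ℂ) where
  toFun v x := v ((ModularGroup.S * ModularGroup.T)⁻¹ • x)
  map_add' _ _ := rfl
  map_smul' _ _ := rfl

lemma IsVForm.rotOp_rhoValue {k : ℤ} {F : X → ℍ → ℂ} (hF : IsVForm cusp k F) :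
    rotOp (rhoValue k F) = rotFactor ^ (-k) • rhoValue k F := by
  funext x
  have h := hF.apply_smul (ModularGroup.S * ModularGroup.T) x ρ₀
  rw [Genus.ST_smul_ρ, denom_ST_ρ] at h
  show (E₆ ρ₀ ^ (k / 6))⁻¹ * F ((ModularGroup.S * ModularGroup.T)⁻¹ • x) ρ₀ = _
  rw [Pi.smul_apply, smul_eq_mul, rhoValue_apply, h]
  have := rotFactor_ne_zero
  rw [zpow_neg]
  field_simp [zpow_ne_zero k this]

/-- The possible normalised values at `ρ` in weights `≤ K`. -/
def valueSet (X : Type) [MulAction SL(2, ℤ) X] (cusp : Bool) (K : ℕ) : Set (X → ℂ) :=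
  {v | ∃ b : ℕ, b ≤ K ∧ ∃ F : X → ℍ → ℂ, IsVForm cusp b F ∧ rhoValue (b : ℤ) F = v}

/-- A basis of vector valued forms adapted to the values at `ρ`. -/
structure FormBasis (X : Type) [MulAction SL(2, ℤ) X] (cusp : Bool) (ι : Type) where
  wt : ι → ℤ
  form : ι → X → ℍ → ℂ
  isForm : ∀ i, IsVForm cusp (wt i) (form i)
  indep : LinearIndependent ℂ fun i ↦ rhoValue (wt i) (form i)
  spans : ∀ (k : ℤ) (F : X → ℍ → ℂ), IsVForm cusp k F →
    rhoValue k F ∈ Submodule.span ℂ ((fun i ↦ rhoValue (wt i) (form i)) '' {i | wt i ≤ k})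

theorem exists_formBasis [Fintype X] (cusp : Bool) :
    ∃ n : ℕ, Nonempty (FormBasis X cusp (Fin n)) := by
  classical
  set S := valueSet X cusp with hS
  have hmono : Monotone S := fun a b hab v ⟨c, hc, h⟩ ↦ ⟨c, hc.trans hab, h⟩
  have hstep : ∀ (K : ℕ) (s : Set (X → ℂ)), LinearIndepOn ℂ id s → s ⊆ S K →
      ∃ b, LinearIndepOn ℂ id b ∧ s ⊆ b ∧ b ⊆ S K ∧ S K ⊆ Submodule.span ℂ b := by
    intro K s hs hst
    obtain ⟨b, h1, h2, h3, h4⟩ := exists_linearIndepOn_id_extension hs hst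
    exact ⟨b, h4, h2, h1, h3⟩
  obtain ⟨b₀, hb₀⟩ := hstep 0 ∅ (linearIndepOn_empty _ _) (Set.empty_subset _)
  choose! nxt hn1 hn2 hn3 hn4 using hstep
  let B : ℕ → Set (X → ℂ) := fun K ↦ Nat.rec b₀ (fun K s ↦ nxt (K + 1) s) K
  have hB : ∀ K, LinearIndepOn ℂ id (B K) ∧ B K ⊆ S K ∧ S K ⊆ Submodule.span ℂ (B K) := by
    intro K
    induction K with
    | zero => exact ⟨hb₀.1, hb₀.2.2.1, hb₀.2.2.2⟩
    | succ K ih =>
      have := ih.2.1.trans (hmono (Nat.le_succ K))
      exact ⟨hn1 _ _ ih.1 this, hn3 _ _ ih.1 this, hn4 _ _ ih.1 this⟩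
  have hBmono : Monotone B := monotone_nat_of_le_succ fun K ↦
    hn2 _ _ (hB K).1 ((hB K).2.1.trans (hmono (Nat.le_succ K)))
  have hind : LinearIndepOn ℂ id (⋃ K, B K) :=
    linearIndepOn_iUnion_of_directed hBmono.directed_le fun K ↦ (hB K).1
  have hfin : (⋃ K, B K).Finite := hind.linearIndependent.set_finite_of_isNoetherian
  have : Fintype (⋃ K, B K) := hfin.fintype
  obtain ⟨n, ⟨e⟩⟩ : ∃ n, Nonempty (Fin n ≃ (⋃ K, B K)) :=
    ⟨_, ⟨(Fintype.equivFin _).symm⟩⟩
  have hmem : ∀ i : Fin n, ∃ m : ℕ, (e i : X → ℂ) ∈ B m ∧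
      ∀ m', (e i : X → ℂ) ∈ B m' → m ≤ m' := fun i ↦
    have h : ∃ m, (e i : X → ℂ) ∈ B m := Set.mem_iUnion.mp (e i).2
    ⟨sInf {m | (e i : X → ℂ) ∈ B m}, Nat.sInf_mem h, fun _ hm ↦ Nat.sInf_le hm⟩
  choose first hfirst hleast using hmem
  have hval : ∀ i : Fin n, ∃ b : ℕ, b ≤ first i ∧
      ∃ F : X → ℍ → ℂ, IsVForm cusp b F ∧ rhoValue (b : ℤ) F = (e i : X → ℂ) :=
    fun i ↦ (hB _).2.1 (hfirst i)
  choose b hb F hF hFv using hval
  clear hmono
  refine ⟨n, ⟨⟨fun i ↦ b i, F, hF, ?_, ?_⟩⟩⟩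
  · simp only [hFv]
    exact hind.linearIndependent.comp e e.injective
  · intro k G hG
    rcases lt_or_ge k 0 with hk | hk
    · rw [hG.eq_zero_of_neg hk, map_zero]; exact zero_mem _
    lift k to ℕ using hk
    have hv : rhoValue (k : ℤ) G ∈ Submodule.span ℂ (B k) := (hB k).2.2 ⟨k, le_rfl, G, hG, rfl⟩
    refine Submodule.span_mono ?_ hv
    intro v hv
    set i := e.symm ⟨v, Set.mem_iUnion.mpr ⟨k, hv⟩⟩ with hi
    have hev : (e i : X → ℂ) = v := by rw [hi, Equiv.apply_symm_apply]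
    refine ⟨i, ?_, (hFv i).trans hev⟩
    show ((b i : ℕ) : ℤ) ≤ k
    exact_mod_cast (hb i).trans (hleast i k (by rw [hev]; exact hv))

variable {ι : Type} [Fintype ι] (B : FormBasis X cusp ι)

namespace FormBasis

omit [Fintype ι] in
lemma form_ne_zero (i : ι) : B.form i ≠ 0 := fun h ↦
  B.indep.ne_zero i (by simp [h])

omit [Fintype ι] in
lemma nonneg [Fintype X] (i : ι) : 0 ≤ B.wt i :=
  not_lt.mp fun h ↦ B.form_ne_zero i ((B.isForm i).eq_zero_of_neg h)

omit [Fintype ι] in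
lemma even (hX : ∀ x : X, (-1 : SL(2, ℤ)) • x = x) (i : ι) : Even (B.wt i) :=
  (Int.even_or_odd _).resolve_right fun h ↦ B.form_ne_zero i ((B.isForm i).eq_zero_of_odd hX h)

lemma rho_value_eq_zero {c : ι → ℂ} (h : ∀ x, ∑ i, c i * B.form i x ρ₀ = 0) : c = 0 := by
  funext i
  have h' : ∑ j, (c j * E₆ ρ₀ ^ (B.wt j / 6)) • rhoValue (B.wt j) (B.form j) = 0 := by
    funext x
    rw [Finset.sum_apply, Pi.zero_apply, ← h x]
    refine Finset.sum_congr rfl fun j _ ↦ ?_
    have := zpow_ne_zero (B.wt j / 6) E₆_ρ_ne_zero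
    rw [Pi.smul_apply, smul_eq_mul, rhoValue_apply]
    field_simp
  have := Fintype.linearIndependent_iff.mp B.indep _ h' i
  exact (mul_eq_zero.mp this).resolve_right (zpow_ne_zero _ E₆_ρ_ne_zero)

end FormBasis

/-- The one point set with trivial action. -/
def OnePt : Type := Unit

instance : MulAction SL(2, ℤ) OnePt where
  smul _ x := x
  one_smul _ := rfl
  mul_smul _ _ _ := rfl

/-- A level one form vanishing at a point is divisible by its point form. -/
theorem IsLevelOne.exists_eq_pointForm_mul {k e : ℤ} {p q : ℍ → ℂ} {τ₀ : ℍ}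
    (hp : IsPointForm τ₀ e p) (hq : IsLevelOne k q) (h : q τ₀ = 0) :
    ∃ r, IsLevelOne (k - e) r ∧ q = p * r := by
  have hQ : IsVForm false k (fun _ : OnePt ↦ q) := ⟨fun _ ↦ hq.holo, fun g _ ↦ hq.slash g, fun _ ↦ hq.bdd⟩
  obtain ⟨H, hH, hmul⟩ := hQ.exists_eq_levelOne_mul hp.levelOne hp.simple one_ne_zero hp.tendsto
    fun _ τ hτ ↦ by obtain ⟨g, rfl⟩ := hp.orbit τ hτ; exact orbit_of_apply_eq_zero hq h g
  exact ⟨H (), ⟨hH.holo (), fun g ↦ hH.slash g (), hH.growth ()⟩, hmul ()⟩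

/-- A vector valued form vanishing at a point is divisible by its point form. -/
theorem IsVForm.exists_eq_pointForm_mul {k e : ℤ} {p : ℍ → ℂ} {τ₀ : ℍ} {G : X → ℍ → ℂ}
    (hp : IsPointForm τ₀ e p) (hG : IsVForm cusp k G) (h : ∀ x, G x τ₀ = 0) :
    ∃ H, IsVForm cusp (k - e) H ∧ ∀ x, G x = p * H x :=
  hG.exists_eq_levelOne_mul hp.levelOne hp.simple one_ne_zero hp.tendsto fun x τ hτ ↦ by
    obtain ⟨g, rfl⟩ := hp.orbit τ hτ
    rw [hG.apply_smul, h, zero_mul]

namespace FormBasis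

variable [Fintype X]

/-- Every form is a combination of the basis over level one forms. -/
theorem exists_repr (hX : ∀ x : X, (-1 : SL(2, ℤ)) • x = x) {k : ℤ} {F : X → ℍ → ℂ}
    (hF : IsVForm cusp k F) :
    ∃ Q : ι → ℍ → ℂ, (∀ i, IsLevelOne (k - B.wt i) (Q i)) ∧
      ∀ x, F x = ∑ i, Q i * B.form i x := by
  classical
  suffices ∀ (n : ℕ) (k : ℤ) (F : X → ℍ → ℂ), k < n → IsVForm cusp k F →
      ∃ Q : ι → ℍ → ℂ, (∀ i, IsLevelOne (k - B.wt i) (Q i)) ∧
        ∀ x, F x = ∑ i, Q i * B.form i x from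
    this (k.toNat + 1) k F (by omega) hF
  intro n
  induction n with
  | zero =>
    intro k F hk hF
    refine ⟨0, fun i ↦ ?_, fun x ↦ by simp [hF.eq_zero_of_neg (by simpa using hk)]⟩
    exact IsLevelOne.of_modularForm (0 : ModularForm 𝒮ℒ _)
  | succ n ih =>
    intro k F hk hF
    rcases eq_or_ne F 0 with rfl | hF0
    · exact ⟨0, fun i ↦ IsLevelOne.of_modularForm (0 : ModularForm 𝒮ℒ _), fun x ↦ by simp⟩
    have hkeven : Even k := (Int.even_or_odd k).resolve_right fun h ↦ hF0 (hF.eq_zero_of_odd hX h)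
    obtain ⟨c, hc0, hc⟩ := (Finsupp.mem_span_image_iff_linearCombination ℂ).mp (B.spans k F hF)
    have hle : ∀ i, c i ≠ 0 → B.wt i ≤ k := fun i hi ↦
      hc0 (Finsupp.mem_support_iff.mpr hi)
    have hsum : ∑ i, c i • rhoValue (B.wt i) (B.form i) = rhoValue k F := by
      rw [← hc, Finsupp.linearCombination_apply, Finsupp.sum_fintype]; simp
    have hdvd : ∀ i, c i ≠ 0 → 6 ∣ k - B.wt i := by
      intro i hi
      have h1 := congrArg rotOp hsum
      rw [hF.rotOp_rhoValue, map_sum, ← hsum, Finset.smul_sum] at h1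
      simp only [map_smul, (B.isForm _).rotOp_rhoValue, smul_smul] at h1
      have := Fintype.linearIndependent_iff.mp B.indep
        (fun j ↦ c j * rotFactor ^ (-B.wt j) - rotFactor ^ (-k) * c j)
        (by simp only [sub_smul, Finset.sum_sub_distrib, h1, sub_self]) i
      have e : rotFactor ^ (-B.wt i) = rotFactor ^ (-k) :=
        mul_left_cancel₀ hi (by linear_combination this)
      have := rotFactor_zpow_eq (B.even hX i).neg hkeven.neg e
      omega
    set l : ι → ℕ := fun i ↦ ((k - B.wt i) / 6).toNat with hl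
    set m : ι → ℍ → ℂ := fun i ↦ c i • (⇑E₆ : ℍ → ℂ) ^ (l i) with hm
    have hmw : ∀ i, IsLevelOne (k - B.wt i) (m i) := by
      intro i
      rcases eq_or_ne (c i) 0 with h0 | h0
      · simp only [hm, h0, zero_smul]; exact IsLevelOne.of_modularForm (0 : ModularForm 𝒮ℒ _)
      · have e : k - B.wt i = (l i : ℤ) * 6 := by
          have := hle i h0; have := hdvd i h0; simp only [hl]; omega
        rw [e]; exact (isLevelOne_E₆.pow _).smul _
    set G : X → ℍ → ℂ := fun x ↦ F x - ∑ i, m i * B.form i x with hG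
    have hGf : IsVForm cusp k G := by
      have : G = F - ∑ i, fun x ↦ m i * B.form i x := by
        funext x; simp [hG, Finset.sum_apply]
      rw [this]
      refine (vSpace X cusp k).sub_mem hF ((vSpace X cusp k).sum_mem fun i _ ↦ ?_)
      simpa [mem_vSpace] using IsVForm.levelOne_mul (hmw i) (B.isForm i)
    have hG0 : ∀ x, G x ρ₀ = 0 := by
      intro x
      have h1 := congrFun hsum x
      rw [Finset.sum_apply] at h1
      simp only [Pi.smul_apply, smul_eq_mul, rhoValue_apply] at h1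
      have hE := zpow_ne_zero (k / 6) E₆_ρ_ne_zero
      simp only [hG, Pi.sub_apply, Finset.sum_apply, Pi.mul_apply, sub_eq_zero]
      calc F x ρ₀ = E₆ ρ₀ ^ (k / 6) * ((E₆ ρ₀ ^ (k / 6))⁻¹ * F x ρ₀) :=
            (mul_inv_cancel_left₀ hE _).symm
        _ = _ := by
          rw [← h1, Finset.mul_sum]
          refine Finset.sum_congr rfl fun i _ ↦ ?_
          simp only [hm, Pi.smul_apply, Pi.pow_apply, smul_eq_mul]
          rcases eq_or_ne (c i) 0 with h0 | h0
          · simp [h0]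
          · have e : k / 6 = (l i : ℤ) + B.wt i / 6 := by
              have := hle i h0; have := hdvd i h0; simp only [hl]; omega
            have := zpow_ne_zero (B.wt i / 6) E₆_ρ_ne_zero
            rw [e, zpow_add₀ E₆_ρ_ne_zero, zpow_natCast]
            field_simp
    obtain ⟨H, hH, hGH⟩ := hGf.exists_eq_pointForm_mul (isPointForm_E₄ Genus.E₄_ρ) hG0
    obtain ⟨Q, hQ, hHQ⟩ := ih (k - 4) H (by omega) hH
    refine ⟨fun i ↦ m i + ⇑E₄ * Q i, fun i ↦ ?_, fun x ↦ ?_⟩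
    · have h4 : IsLevelOne (k - B.wt i) (⇑E₄ * Q i) := by
        have := isLevelOne_E₄.mul (hQ i)
        rwa [show (4 : ℤ) + (k - 4 - B.wt i) = k - B.wt i by ring] at this
      exact IsLevelOne.of_modularForm ((hmw i).toModularForm + h4.toModularForm)
    · have := hGH x
      simp only [hG, sub_eq_iff_eq_add] at this
      rw [this, hHQ x, Finset.mul_sum, ← Finset.sum_add_distrib]
      refine Finset.sum_congr rfl fun i _ ↦ ?_
      ring

/-- The basis is independent over level one forms. -/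
theorem repr_eq_zero (k : ℤ) (Q : ι → ℍ → ℂ) (hQ : ∀ i, IsLevelOne (k - B.wt i) (Q i))
    (h : ∀ x, ∑ i, Q i * B.form i x = 0) : Q = 0 := by
  suffices ∀ (n : ℕ) (k : ℤ) (Q : ι → ℍ → ℂ), k < n → (∀ i, IsLevelOne (k - B.wt i) (Q i)) →
      (∀ x, ∑ i, Q i * B.form i x = 0) → Q = 0 from this (k.toNat + 1) k Q (by omega) hQ h
  intro n
  induction n with
  | zero =>
    intro k Q hk hQ _
    funext i
    exact (hQ i).eq_zero_of_neg (by have := B.nonneg i; omega)
  | succ n ih =>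
    intro k Q hk hQ h
    have h0 : ∀ i, Q i ρ₀ = 0 := congrFun (B.rho_value_eq_zero (c := fun i ↦ Q i ρ₀)
      fun x ↦ by simpa [Finset.sum_apply] using congrFun (h x) ρ₀)
    choose R hR hQR using fun i ↦
      (hQ i).exists_eq_pointForm_mul (isPointForm_E₄ Genus.E₄_ρ) (h0 i)
    have hsum : ∀ x, ∑ i, R i * B.form i x = 0 := fun x ↦ by
      refine cancel_of_simpleZeros isLevelOne_E₄.holo simpleZeros_E₄ ?_ mdifferentiable_const
        fun τ ↦ ?_
      · exact IsVForm.sum_levelOne.vSum_holo Finset.univ _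
          fun i ↦ (hR i).holo.mul ((B.isForm i).holo x)
      · have := congrFun (h x) τ
        simp only [Finset.sum_apply, Pi.mul_apply, hQR, Pi.zero_apply, mul_zero] at this ⊢
        rw [← this, Finset.mul_sum]
        exact Finset.sum_congr rfl fun i _ ↦ by ring
    have := ih (k - 4) R (by omega)
      (fun i ↦ by have := hR i; rwa [sub_right_comm] at this) hsum
    funext i
    rw [hQR i, congrFun this i]
    simp

omit [Fintype X] in
/-- Monomials of complementary weight. -/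
lemma exists_wt_monomial (hX : ∀ x : X, (-1 : SL(2, ℤ)) • x = x) :
    ∃ (K : ℤ) (a b : ι → ℕ), ∀ i, ((4 * a i + 6 * b i : ℕ) : ℤ) = K - B.wt i := by
  let N := ∑ i, (B.wt i).toNat
  have hN : ∀ i, B.wt i ≤ 2 * (N : ℤ) := fun i ↦ by
    have := Finset.single_le_sum (f := fun i ↦ (B.wt i).toNat) (fun _ _ ↦ Nat.zero_le _)
      (Finset.mem_univ i)
    omega
  have hex : ∀ i, ∃ a b : ℕ, ((4 * a + 6 * b : ℕ) : ℤ) = 2 * (N + 2 : ℕ) - B.wt i := fun i ↦ by
    obtain ⟨d, hd⟩ := (B.even hX i).two_dvd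
    obtain ⟨a, b, hab⟩ := exists_exponents (n := (((N + 2 : ℕ) : ℤ) - d).toNat)
      (by have := hN i; omega)
    exact ⟨a, b, by have := hN i; omega⟩
  choose a b hab using hex
  exact ⟨_, a, b, hab⟩

/-- Coefficients of a multiple of a level one form are multiples of it. -/
lemma exists_coeff_eq_mul (hX : ∀ x : X, (-1 : SL(2, ℤ)) • x = x) {K e : ℤ} {p : ℍ → ℂ}
    (hp : IsLevelOne e p) {q : ι → ℍ → ℂ} (hq : ∀ i, IsLevelOne (K - B.wt i) (q i))
    {H : X → ℍ → ℂ} (hH : IsVForm cusp (K - e) H) (h : ∀ x, ∑ i, q i * B.form i x = p * H x) :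
    ∃ R : ι → ℍ → ℂ, (∀ i, IsLevelOne (K - e - B.wt i) (R i)) ∧ ∀ i, q i = p * R i := by
  obtain ⟨R, hR, hHR⟩ := B.exists_repr hX hH
  have hw : ∀ i, IsLevelOne (K - B.wt i) (q i - p * R i) := fun i ↦ by
    refine (hq i).sub ?_
    have := hp.mul (hR i)
    rwa [show e + (K - e - B.wt i) = K - B.wt i by ring] at this
  refine ⟨R, hR, fun i ↦ sub_eq_zero.mp (congrFun (B.repr_eq_zero K _ hw fun x ↦ ?_) i)⟩
  simp only [sub_mul, Finset.sum_sub_distrib, h x, hHR x, Finset.mul_sum, mul_assoc, sub_self]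

/-- Basic step for independence of values at a point. -/
lemma value_step (hX : ∀ x : X, (-1 : SL(2, ℤ)) • x = x) {τ₀ : ℍ} {e : ℤ} {p : ℍ → ℂ}
    (hp : IsPointForm τ₀ e p) {K : ℤ} {m : ι → ℍ → ℂ} {c : ι → ℂ}
    (hm : ∀ i, c i ≠ 0 → IsLevelOne (K - B.wt i) (m i) ∧ m i τ₀ ≠ 0)
    (h : ∀ x, ∑ i, c i * B.form i x τ₀ = 0) : c = 0 := by
  classical
  set q : ι → ℍ → ℂ := fun i ↦ if c i = 0 then 0 else (c i / m i τ₀) • m i with hq
  have hqw : ∀ i, IsLevelOne (K - B.wt i) (q i) := fun i ↦ by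
    simp only [hq]; split_ifs with h0
    · exact IsLevelOne.of_modularForm (0 : ModularForm 𝒮ℒ _)
    · exact (hm i h0).1.smul _
  have hqv : ∀ i, q i τ₀ = c i := fun i ↦ by
    simp only [hq]; split_ifs with h0
    · simp [h0]
    · simp [div_mul_cancel₀ _ (hm i h0).2]
  set G : X → ℍ → ℂ := ∑ i, fun x ↦ q i * B.form i x with hG
  have hGf : IsVForm cusp K G := (vSpace X cusp K).sum_mem fun i _ ↦ by
    simpa [mem_vSpace] using IsVForm.levelOne_mul (hqw i) (B.isForm i)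
  obtain ⟨H, hH, hGH⟩ := hGf.exists_eq_pointForm_mul hp
    fun x ↦ by simpa [hG, Finset.sum_apply, hqv] using h x
  obtain ⟨R, -, hR⟩ := B.exists_coeff_eq_mul hX hp.levelOne hqw hH
    fun x ↦ by simpa [hG, Finset.sum_apply] using hGH x
  funext i
  simpa [hqv, hp.zero] using congrFun (hR i) τ₀

omit [Fintype X] in
lemma value_eq_zero_of_orbit {τ₀ : ℍ} (g : SL(2, ℤ))
    (h0 : ∀ c : ι → ℂ, (∀ x, ∑ i, c i * B.form i x τ₀ = 0) → c = 0) {c : ι → ℂ}
    (h : ∀ x, ∑ i, c i * B.form i x (g • τ₀) = 0) : c = 0 := by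
  have := h0 (fun i ↦ c i * denom g (τ₀ : ℂ) ^ B.wt i) fun x ↦ by
    rw [← h (g • x)]
    refine Finset.sum_congr rfl fun i _ ↦ ?_
    rw [(B.isForm i).apply_smul, inv_smul_smul]; ring
  funext i
  have hi := congrFun this i
  exact (mul_eq_zero.mp hi).resolve_right (zpow_ne_zero _ (denom_ne_zero _ τ₀))

lemma value_I_eq_zero (hX : ∀ x : X, (-1 : SL(2, ℤ)) • x = x) {c : ι → ℂ}
    (h : ∀ x, ∑ i, c i * B.form i x UpperHalfPlane.I = 0) : c = 0 := by
  classical
  set s : ι → ℂ := fun i ↦ Complex.I ^ B.wt i with hs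
  have h2 : ∀ x, ∑ i, c i * s i * B.form i x UpperHalfPlane.I = 0 := fun x ↦ by
    rw [← h (ModularGroup.S • x)]
    refine Finset.sum_congr rfl fun i _ ↦ ?_
    have := (B.isForm i).apply_smul ModularGroup.S (ModularGroup.S • x) UpperHalfPlane.I
    rw [Genus.S_smul_I, inv_smul_smul] at this
    rw [this, hs, show denom ModularGroup.S (UpperHalfPlane.I : ℂ) = Complex.I from
      ModularGroup.denom_S _]
    ring
  have hK : ∀ r : ℤ, (r = 0 ∨ r = 2) → (fun i ↦ if B.wt i % 4 = r then c i else 0) = 0 := by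
    intro r hr
    obtain ⟨N, hN⟩ : ∃ N : ℕ, ∀ i, B.wt i ≤ N := ⟨∑ i, (B.wt i).toNat, fun i ↦ by
      have := Finset.single_le_sum (f := fun i ↦ (B.wt i).toNat) (fun _ _ ↦ Nat.zero_le _)
        (Finset.mem_univ i)
      omega⟩
    refine B.value_step hX (isPointForm_E₆ Genus.E₆_I) (K := 4 * N + r)
      (m := fun i ↦ (⇑E₄ : ℍ → ℂ) ^ (((4 * N + r - B.wt i) / 4).toNat)) (fun i hi ↦ ?_) fun x ↦ ?_
    · have hc : B.wt i % 4 = r := by by_contra hc; simp [hc] at hi
      refine ⟨?_, pow_ne_zero _ E₄_I_ne_zero⟩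
      have e : 4 * (N : ℤ) + r - B.wt i = ((((4 * N + r - B.wt i) / 4).toNat : ℕ) : ℤ) * 4 := by
        have := hN i; have := B.nonneg i; omega
      have h' := isLevelOne_E₄.pow ((4 * (N : ℤ) + r - B.wt i) / 4).toNat
      rwa [← e] at h'
    · have hi : ∀ i, s i = if B.wt i % 4 = 0 then 1 else -1 := fun i ↦ by
        obtain ⟨d, hd⟩ := (B.even hX i).two_dvd
        simp only [hs, hd]
        rw [zpow_mul, show Complex.I ^ (2 : ℤ) = -1 by simp [zpow_ofNat]]
        rcases Int.even_or_odd d with he | he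
        · rw [he.neg_one_zpow, if_pos (by obtain ⟨u, rfl⟩ := he; omega)]
        · rw [he.neg_one_zpow, if_neg (by obtain ⟨u, rfl⟩ := he; omega)]
      have hcomb : ∀ i, (if B.wt i % 4 = r then c i else 0)
          = (c i + (if r = 0 then 1 else -1) * (c i * s i)) / 2 := fun i ↦ by
        have hev := (B.even hX i).two_dvd
        rw [hi]
        rcases hr with rfl | rfl <;> by_cases h4 : B.wt i % 4 = 0
        · simp [h4]
        · simp [h4]
        · simp [h4]
        · rw [if_pos (by omega), if_neg h4]; norm_num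
      simp only [hcomb, div_mul_eq_mul_div, ← Finset.sum_div, add_mul, Finset.sum_add_distrib,
        mul_assoc, ← Finset.mul_sum, div_eq_zero_iff]
      left
      rw [h x]
      have := h2 x
      simp only [mul_assoc] at this
      rw [this, mul_zero, add_zero]
  funext i
  have h4 := (B.even hX i).two_dvd
  by_cases hc : B.wt i % 4 = 0
  · simpa [hc] using congrFun (hK 0 (Or.inl rfl)) i
  · have e : B.wt i % 4 = 2 := by omega
    simpa [e] using congrFun (hK 2 (Or.inr rfl)) i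

/-- The values of the basis are linearly independent at every point. -/
theorem value_eq_zero (hX : ∀ x : X, (-1 : SL(2, ℤ)) • x = x) (τ₀ : ℍ) {c : ι → ℂ}
    (h : ∀ x, ∑ i, c i * B.form i x τ₀ = 0) : c = 0 := by
  by_cases h4 : E₄ τ₀ = 0
  · obtain ⟨g, rfl⟩ := exists_smul_eq_of_jH_eq (τ₀ := ρ₀) (τ₁ := τ₀)
      (by simp [Genus.jH, h4, Genus.E₄_ρ])
    exact B.value_eq_zero_of_orbit g (fun c ↦ B.rho_value_eq_zero) h
  by_cases h6 : E₆ τ₀ = 0
  · obtain ⟨g, rfl⟩ := (isPointForm_E₆ Genus.E₆_I).orbit τ₀ h6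
    exact B.value_eq_zero_of_orbit g (fun c ↦ B.value_I_eq_zero hX) h
  · obtain ⟨K, a, b, hab⟩ := B.exists_wt_monomial hX
    exact B.value_step hX (isPointForm_generic h4 h6)
      (m := fun i ↦ (⇑E₄ : ℍ → ℂ) ^ a i * (⇑E₆ : ℍ → ℂ) ^ b i) (K := K)
      (fun i _ ↦ ⟨hab i ▸ isLevelOne_monomial (a i) (b i), by simp [h4, h6]⟩) h

theorem linearIndependent_value (hX : ∀ x : X, (-1 : SL(2, ℤ)) • x = x) (τ₀ : ℍ) :
    LinearIndependent ℂ fun i x ↦ B.form i x τ₀ := by
  rw [Fintype.linearIndependent_iff]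
  intro c hc
  exact congrFun (B.value_eq_zero hX τ₀ fun x ↦ by simpa [Finset.sum_apply] using congrFun hc x)

end FormBasis

end Fermat.Agent.Poincare
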