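import Mathlib.NumberTheory.ModularForms.EisensteinSeries.Summable
import Mathlib.NumberTheory.ModularForms.SlashActions
import Mathlib.Analysis.Complex.LocallyUniformLimit
import Mathlib.Analysis.Complex.UpperHalfPlane.Manifold
import Mathlib.Analysis.Complex.UpperHalfPlane.FunctionsBoundedAtInfty
import Mathlib.Analysis.Normed.Group.Tannery

/-!
# Poincaré series with bounded coefficients

The series `∑ a(g) ((w - w̄) / ((g τ - w̄) j(g, τ)))^k` over `SL(2, ℤ)`: convergence,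
transformation law, vanishing at the cusps and the value at `w` as `k → ∞`.
-/

set_option autoImplicit false

noncomputable section

open Complex UpperHalfPlane Filter Topology EisensteinSeries
open scoped MatrixGroups ComplexConjugate ModularForm Manifold

namespace Fermat.Agent.Poincare

/-- The linear form `g i 0 * z + g i 1`. -/
def rowForm (g : SL(2, ℤ)) (z : ℂ) (i : Fin 2) : ℂ := (g i 0 : ℂ) * z + (g i 1 : ℂ)

lemma denom_eq_rowForm (g : SL(2, ℤ)) (z : ℂ) : denom g z = rowForm g z 1 := by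
  simp [denom, rowForm]

lemma coe_smul_eq_rowForm (g : SL(2, ℤ)) (τ : ℍ) :
    ((g • τ : ℍ) : ℂ) = rowForm g τ 0 / rowForm g τ 1 := by
  rw [UpperHalfPlane.coe_specialLinearGroup_apply]
  simp [rowForm]

lemma rowForm_one_ne_zero (g : SL(2, ℤ)) (τ : ℍ) : rowForm g τ 1 ≠ 0 := by
  rw [← denom_eq_rowForm]; exact denom_ne_zero _ τ

lemma rowForm_mul (g h : SL(2, ℤ)) (z : ℂ) (i : Fin 2) :
    rowForm (g * h) z i = (g i 0 : ℂ) * rowForm h z 0 + (g i 1 : ℂ) * rowForm h z 1 := by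
  simp [rowForm, Matrix.mul_apply, Fin.sum_univ_two]
  ring

/-- `(g τ - w̄) * j(g, τ)`, as a linear form in the entries of `g`. -/
def pairForm (w : ℍ) (g : SL(2, ℤ)) (z : ℂ) : ℂ :=
  rowForm g z 0 - conj (w : ℂ) * rowForm g z 1

lemma pairForm_mul (w : ℍ) (g h : SL(2, ℤ)) (τ : ℍ) :
    pairForm w (g * h) τ = pairForm w g (h • τ : ℍ) * rowForm h τ 1 := by
  have hne := rowForm_one_ne_zero h τ
  have e : ∀ i, rowForm g ((h • τ : ℍ) : ℂ) i * rowForm h τ 1 = rowForm (g * h) τ i := fun i ↦ by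
    rw [rowForm_mul, coe_smul_eq_rowForm, rowForm, add_mul, mul_assoc, div_mul_cancel₀ _ hne]
  simp only [pairForm]
  rw [sub_mul, mul_assoc, e, e]

lemma det_entries (g : SL(2, ℤ)) : g 0 0 * g 1 1 - g 0 1 * g 1 0 = 1 := by
  have := g.det_coe
  rwa [Matrix.det_fin_two] at this

lemma normSq_pairForm (w : ℍ) (g : SL(2, ℤ)) (τ : ℍ) :
    normSq (pairForm w g τ)
      = normSq (rowForm g τ 0 - (w : ℂ) * rowForm g τ 1) + 4 * w.im * τ.im := by
  have hdet : (g 0 0 : ℝ) * g 1 1 - g 0 1 * g 1 0 = 1 := by exact_mod_cast det_entries g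
  simp only [pairForm, rowForm, normSq_apply, sub_re, sub_im, mul_re, mul_im, add_re, add_im,
    conj_re, conj_im, intCast_re, intCast_im, UpperHalfPlane.coe_re, UpperHalfPlane.coe_im]
  linear_combination (4 * w.im * τ.im) * hdet

lemma pairForm_ne_zero (w : ℍ) (g : SL(2, ℤ)) (τ : ℍ) : pairForm w g τ ≠ 0 := by
  intro h
  have := normSq_pairForm w g τ
  rw [h, map_zero] at this
  nlinarith [normSq_nonneg (rowForm g τ 0 - (w : ℂ) * rowForm g τ 1),
    mul_pos w.im_pos τ.im_pos]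

/-- A constant with `|rowForm g τ i| ≤ formConst w * |pairForm w g τ|`. -/
def formConst (w : ℍ) : ℝ := 1 + (1 + |w.re|) / w.im

lemma formConst_pos (w : ℍ) : 0 < formConst w := by
  have := w.im_pos
  unfold formConst
  positivity

lemma norm_rowForm_le (w : ℍ) (g : SL(2, ℤ)) (τ : ℍ) (i : Fin 2) :
    ‖rowForm g τ i‖ ≤ formConst w * ‖pairForm w g τ‖ := by
  set n := rowForm g τ 0 with hn
  set p := rowForm g τ 1 with hp
  set L := pairForm w g τ with hL
  have hv := w.im_pos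
  have hle : normSq (n - (w : ℂ) * p) ≤ normSq L := by
    rw [hL, normSq_pairForm]; nlinarith [mul_pos hv τ.im_pos]
  have hdiff : ‖(w : ℂ) - conj (w : ℂ)‖ = 2 * w.im := by
    rw [Complex.sub_conj, norm_mul, Complex.norm_I, mul_one, Complex.norm_real,
      Real.norm_of_nonneg (by simp [hv.le])]
    simp
  have hnle : ‖n - (w : ℂ) * p‖ ≤ ‖L‖ := by
    rw [Complex.norm_def, Complex.norm_def]; exact Real.sqrt_le_sqrt hle
  have hpe : ((w : ℂ) - conj (w : ℂ)) * p = L - (n - (w : ℂ) * p) := by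
    rw [hL, pairForm, ← hn, ← hp]; ring
  have hp' : 2 * w.im * ‖p‖ ≤ 2 * ‖L‖ := by
    rw [← hdiff, ← norm_mul, hpe]
    linarith [norm_sub_le L (n - (w : ℂ) * p)]
  have hpb : ‖p‖ ≤ ‖L‖ / w.im := by
    rw [le_div_iff₀ hv]; linarith
  have hne : n = ((L + (n - (w : ℂ) * p)) / 2) + (w.re : ℂ) * p := by
    have : conj (w : ℂ) = 2 * (w.re : ℂ) - (w : ℂ) := by
      rw [eq_sub_iff_add_eq, add_comm, Complex.add_conj]; simp
    rw [hL, pairForm, ← hn, ← hp, this]; ring
  have hnb : ‖n‖ ≤ ‖L‖ + |w.re| * (‖L‖ / w.im) := by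
    rw [hne]
    refine (norm_add_le _ _).trans (add_le_add ?_ ?_)
    · rw [norm_div, Complex.norm_two, div_le_iff₀ (by norm_num : (0 : ℝ) < 2)]
      linarith [norm_add_le L (n - (w : ℂ) * p)]
    · rw [norm_mul, Complex.norm_real, Real.norm_eq_abs]
      exact mul_le_mul_of_nonneg_left hpb (abs_nonneg _)
  have hL0 : (0 : ℝ) ≤ ‖L‖ := norm_nonneg _
  have h2 : formConst w * ‖L‖ = ‖L‖ + (‖L‖ / w.im + |w.re| * (‖L‖ / w.im)) := by
    unfold formConst; ring
  have h3 : 0 ≤ ‖L‖ / w.im := by positivity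
  have h4 : 0 ≤ |w.re| * (‖L‖ / w.im) := by positivity
  fin_cases i
  · show ‖n‖ ≤ _
    linarith
  · show ‖p‖ ≤ _
    linarith

/-- A row of an element of `SL(2, ℤ)`. -/
def rowVec (g : SL(2, ℤ)) (i : Fin 2) : Fin 2 → ℤ := ![g i 0, g i 1]

lemma rowVec_ne_zero (g : SL(2, ℤ)) (i : Fin 2) : rowVec g i ≠ 0 := by
  intro h
  have h0 := congrFun h 0
  have h1 := congrFun h 1
  simp [rowVec] at h0 h1
  have := det_entries g
  fin_cases i <;> simp_all

lemma one_le_norm_rowVec (g : SL(2, ℤ)) (i : Fin 2) : 1 ≤ ‖rowVec g i‖ := by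
  have h := rowVec_ne_zero g i
  rw [norm_eq_max_natAbs]
  have : ¬ (rowVec g i 0 = 0 ∧ rowVec g i 1 = 0) := fun ⟨a, b⟩ ↦ h (by ext j; fin_cases j <;> simpa)
  have : 1 ≤ max (rowVec g i 0).natAbs (rowVec g i 1).natAbs := by omega
  exact_mod_cast this

lemma r_mul_norm_rowVec_le (g : SL(2, ℤ)) (τ : ℍ) (i : Fin 2) :
    r τ * ‖rowVec g i‖ ≤ ‖rowForm g τ i‖ := by
  simpa [rowVec, rowForm] using r_mul_max_le τ (rowVec_ne_zero g i)

/-- A summable majorant on `SL(2, ℤ)`. -/
def majorant (g : SL(2, ℤ)) : ℝ := ((‖rowVec g 0‖ * ‖rowVec g 1‖) ^ 4)⁻¹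

lemma majorant_nonneg (g : SL(2, ℤ)) : 0 ≤ majorant g := by
  unfold majorant; positivity

lemma summable_majorant : Summable majorant := by
  have h : Summable fun x : Fin 2 → ℤ ↦ (‖x‖ ^ 4)⁻¹ := by
    refine (summable_one_div_norm_rpow (k := 4) (by norm_num)).congr fun x ↦ ?_
    rw [Real.rpow_neg (norm_nonneg _), ← Real.rpow_natCast]
    norm_num
  have h2 : Summable fun p : (Fin 2 → ℤ) × (Fin 2 → ℤ) ↦ (‖p.1‖ ^ 4)⁻¹ * (‖p.2‖ ^ 4)⁻¹ :=
    (h.mul_of_nonneg h (fun _ ↦ by positivity) (fun _ ↦ by positivity) :)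
  have hinj : Function.Injective fun g : SL(2, ℤ) ↦ (rowVec g 0, rowVec g 1) := by
    intro g g' hg
    simp only [Prod.mk.injEq] at hg
    ext i j
    fin_cases i <;> fin_cases j <;>
      first
        | simpa [rowVec] using congrFun hg.1 0
        | simpa [rowVec] using congrFun hg.1 1
        | simpa [rowVec] using congrFun hg.2 0
        | simpa [rowVec] using congrFun hg.2 1
  refine (h2.comp_injective hinj).congr fun g ↦ ?_
  simp [majorant, mul_pow, Function.comp, mul_comm]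

/-- The general term of the Poincaré series. -/
def poincareTerm (k : ℕ) (w : ℍ) (g : SL(2, ℤ)) (z : ℂ) : ℂ :=
  (((w : ℂ) - conj (w : ℂ)) / pairForm w g z) ^ k

lemma norm_poincareTerm (k : ℕ) (w : ℍ) (g : SL(2, ℤ)) (z : ℂ) :
    ‖poincareTerm k w g z‖ = (2 * w.im / ‖pairForm w g z‖) ^ k := by
  rw [poincareTerm, norm_pow, norm_div, Complex.sub_conj, norm_mul, Complex.norm_I, mul_one,
    Complex.norm_real, Real.norm_of_nonneg (by simp [w.im_pos.le])]
  simp

lemma majorant_bound {X : ℝ} {w : ℍ} {g : SL(2, ℤ)} {τ : ℍ} (hX : X ≤ r τ) (hX0 : 0 < X) :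
    (2 * w.im / ‖pairForm w g τ‖) ^ 8 ≤ (2 * w.im * formConst w / X) ^ 8 * majorant g ∧
      2 * w.im / ‖pairForm w g τ‖ ≤ 2 * w.im * formConst w / X := by
  have hc := formConst_pos w
  have hL : (0 : ℝ) < ‖pairForm w g τ‖ := norm_pos_iff.mpr (pairForm_ne_zero w g τ)
  have hb : ∀ i, X * ‖rowVec g i‖ / formConst w ≤ ‖pairForm w g τ‖ := fun i ↦ by
    rw [div_le_iff₀ hc, mul_comm _ (formConst w)]
    exact ((mul_le_mul_of_nonneg_right hX (norm_nonneg _)).trans
      (r_mul_norm_rowVec_le g τ i)).trans (norm_rowForm_le w g τ i)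
  have h0 := one_le_norm_rowVec g 0
  have h1 := one_le_norm_rowVec g 1
  constructor
  · calc (2 * w.im / ‖pairForm w g τ‖) ^ 8
        = (2 * w.im) ^ 8 / (‖pairForm w g τ‖ ^ 4 * ‖pairForm w g τ‖ ^ 4) := by
          rw [div_pow, ← pow_add]
      _ ≤ (2 * w.im) ^ 8 /
            ((X * ‖rowVec g 0‖ / formConst w) ^ 4 * (X * ‖rowVec g 1‖ / formConst w) ^ 4) := by
          have := w.im_pos
          gcongr
          · exact hb 0
          · exact hb 1
      _ = _ := by
          rw [majorant]; field_simp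
  · have := hb 0
    have hXc : X / formConst w ≤ ‖pairForm w g τ‖ := by
      refine le_trans ?_ this
      gcongr
      exact le_mul_of_one_le_right hX0.le h0
    calc 2 * w.im / ‖pairForm w g τ‖ ≤ 2 * w.im / (X / formConst w) := by
          have := w.im_pos
          gcongr
      _ = _ := by field_simp

lemma norm_poincareTerm_le {k : ℕ} (hk : 8 ≤ k) {X : ℝ} (w : ℍ) (g : SL(2, ℤ)) {τ : ℍ}
    (hX : X ≤ r τ) (hX0 : 0 < X) :
    ‖poincareTerm k w g τ‖ ≤ (2 * w.im * formConst w / X) ^ k * majorant g := by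
  obtain ⟨h8, h1⟩ := majorant_bound (w := w) (g := g) hX hX0
  obtain ⟨l, rfl⟩ := Nat.exists_eq_add_of_le hk
  have hv := w.im_pos
  rw [norm_poincareTerm, pow_add, pow_add]
  calc _ ≤ (2 * w.im * formConst w / X) ^ 8 * majorant g * (2 * w.im * formConst w / X) ^ l := by
        gcongr
        · exact mul_nonneg (by have := formConst_pos w; positivity) (majorant_nonneg g)
    _ = _ := by ring

lemma summable_norm_poincareTerm {k : ℕ} (hk : 8 ≤ k) (w τ : ℍ) :
    Summable fun g ↦ ‖poincareTerm k w g τ‖ :=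
  Summable.of_nonneg_of_le (fun _ ↦ norm_nonneg _)
    (fun g ↦ norm_poincareTerm_le hk w g le_rfl (r_pos τ)) (summable_majorant.mul_left _)

/-- The Poincaré series with coefficients `a`. -/
def poincare (k : ℕ) (w : ℍ) (a : SL(2, ℤ) → ℂ) (τ : ℍ) : ℂ :=
  ∑' g, a g * poincareTerm k w g τ

lemma poincareTerm_slash (k : ℕ) (w : ℍ) (g h : SL(2, ℤ)) (τ : ℍ) :
    poincareTerm k w g (h • τ : ℍ) * denom h τ ^ (-(k : ℤ)) = poincareTerm k w (g * h) τ := by
  rw [poincareTerm, poincareTerm, pairForm_mul, denom_eq_rowForm, zpow_neg, zpow_natCast,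
    ← div_eq_mul_inv, ← div_pow, div_div]

theorem poincare_slash (k : ℕ) (w : ℍ) (a : SL(2, ℤ) → ℂ) (h : SL(2, ℤ)) :
    poincare k w a ∣[(k : ℤ)] h = poincare k w (fun g ↦ a (g * h⁻¹)) := by
  ext τ
  rw [ModularForm.SL_slash_apply, poincare, poincare, ← tsum_mul_right]
  refine (Equiv.tsum_eq (Equiv.mulRight h) (fun g ↦ a (g * h⁻¹) * poincareTerm k w g τ)).symm.trans
    ?_ |>.symm
  refine tsum_congr fun g ↦ ?_
  simp only [Equiv.coe_mulRight, mul_inv_cancel_right]
  rw [mul_assoc, poincareTerm_slash]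

lemma differentiableOn_poincareTerm (k : ℕ) (w : ℍ) (g : SL(2, ℤ)) :
    DifferentiableOn ℂ (poincareTerm k w g) {z : ℂ | 0 < z.im} := by
  refine DifferentiableOn.pow (DifferentiableOn.div (differentiableOn_const _) ?_ ?_) k
  · unfold pairForm rowForm; fun_prop
  · intro z hz; exact pairForm_ne_zero w g ⟨z, hz⟩

theorem mdifferentiable_poincare {k : ℕ} (hk : 8 ≤ k) (w : ℍ) {a : SL(2, ℤ) → ℂ} {C : ℝ}
    (ha : ∀ g, ‖a g‖ ≤ C) : MDiff (poincare k w a) := by
  rw [UpperHalfPlane.mdifferentiable_iff]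
  intro z hz
  replace hz : 0 < z.im := hz
  have hC : 0 ≤ C := (norm_nonneg _).trans (ha 1)
  set U : Set ℂ := {u | |u.re| < |z.re| + 1} ∩ {u | z.im / 2 < u.im} with hU
  have hUo : IsOpen U :=
    (isOpen_lt (Complex.continuous_re.abs) continuous_const).inter (isOpen_lt continuous_const Complex.continuous_im)
  have hzU : z ∈ U := ⟨show |z.re| < |z.re| + 1 by linarith, show z.im / 2 < z.im by linarith⟩
  have hUsub : U ⊆ {u : ℂ | 0 < u.im} := fun u hu ↦
    show 0 < u.im by have : z.im / 2 < u.im := hu.2; linarith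
  set X := r (⟨⟨|z.re| + 1, z.im / 2⟩, by show 0 < z.im / 2; linarith⟩ : ℍ) with hX
  have hd : DifferentiableOn ℂ (fun u ↦ ∑' g, a g * poincareTerm k w g u) U := by
    refine differentiableOn_tsum_of_summable_norm
      (u := fun g ↦ C * ((2 * w.im * formConst w / X) ^ k * majorant g))
      ((summable_majorant.mul_left _).mul_left C)
      (fun g ↦ ((differentiableOn_poincareTerm k w g).mono hUsub).const_mul (a g)) hUo
      fun g u hu ↦ ?_
    rw [norm_mul]
    refine mul_le_mul (ha g) ?_ (norm_nonneg _) hC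
    exact norm_poincareTerm_le hk w g (τ := ⟨u, hUsub hu⟩)
      (r_lower_bound_on_verticalStrip _ (by linarith) ⟨le_of_lt hu.1, le_of_lt hu.2⟩) (r_pos _)
  refine DifferentiableAt.differentiableWithinAt ?_
  refine (hd.differentiableAt (hUo.mem_nhds hzU)).congr_of_eventuallyEq ?_
  filter_upwards [hUo.mem_nhds hzU] with u hu
  simp only [Function.comp_apply, ofComplex_apply_of_im_pos (hUsub hu)]
  rfl

/-- The sum of absolute values of the general terms. -/
def absSum (k : ℕ) (w τ : ℍ) : ℝ := ∑' g, ‖poincareTerm k w g τ‖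

lemma norm_poincare_le {k : ℕ} (hk : 8 ≤ k) (w τ : ℍ) {a : SL(2, ℤ) → ℂ} {C : ℝ}
    (ha : ∀ g, ‖a g‖ ≤ C) : ‖poincare k w a τ‖ ≤ C * absSum k w τ := by
  rw [absSum, ← tsum_mul_left]
  refine tsum_of_norm_bounded ((summable_norm_poincareTerm hk w τ).mul_left C).hasSum fun g ↦ ?_
  rw [norm_mul]; exact mul_le_mul_of_nonneg_right (ha g) (norm_nonneg _)

lemma absSum_T_zpow_smul (k : ℕ) (w τ : ℍ) (n : ℤ) :
    absSum k w (ModularGroup.T ^ n • τ) = absSum k w τ := by
  unfold absSum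
  rw [← Equiv.tsum_eq (Equiv.mulRight (ModularGroup.T ^ n)) (fun g ↦ ‖poincareTerm k w g τ‖)]
  refine tsum_congr fun g ↦ ?_
  rw [Equiv.coe_mulRight, norm_poincareTerm, norm_poincareTerm, pairForm_mul]
  simp [rowForm, ModularGroup.coe_T_zpow]

lemma absSum_le_div_im {k : ℕ} (hk : 9 ≤ k) (w : ℍ) :
    ∃ K, ∀ τ : ℍ, 1 ≤ τ.im → absSum k w τ ≤ K / τ.im := by
  obtain ⟨l, rfl⟩ : ∃ l, k = l + 1 := ⟨k - 1, by omega⟩
  set X := r (⟨⟨1, 1⟩, by norm_num⟩ : ℍ) with hX
  set B := 2 * w.im * formConst w with hB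
  refine ⟨B * ((B / X) ^ l * ∑' g, majorant g), fun τ hτ ↦ ?_⟩
  set τ' := ModularGroup.T ^ (-⌊τ.re⌋) • τ with hτ'
  have hcoe : (τ' : ℍ) = ((-⌊τ.re⌋ : ℤ) : ℝ) +ᵥ τ := by rw [hτ', UpperHalfPlane.modular_T_zpow_smul]
  have him : τ'.im = τ.im := by rw [hcoe, UpperHalfPlane.vadd_im]
  have hre : |τ'.re| ≤ 1 := by
    rw [hcoe, UpperHalfPlane.vadd_re, abs_le]
    have h1 := Int.floor_le τ.re
    have h2 := Int.lt_floor_add_one τ.re
    push_cast; constructor <;> linarith
  have hXle : X ≤ r τ' := r_lower_bound_on_verticalStrip τ' one_pos ⟨hre, by rw [him]; exact hτ⟩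
  have hXpos : 0 < X := r_pos _
  have hc := formConst_pos w
  have hv := w.im_pos
  rw [← absSum_T_zpow_smul _ w τ (-⌊τ.re⌋), ← hτ', ← him]
  have key : ∀ g, ‖poincareTerm (l + 1) w g τ'‖ ≤ B / τ'.im * ((B / X) ^ l * majorant g) := by
    intro g
    have h := norm_poincareTerm_le (k := l) (by omega) w g hXle hXpos
    rw [norm_poincareTerm] at h ⊢
    rw [pow_succ, mul_comm (B / τ'.im)]
    refine mul_le_mul h ?_ (by positivity) (mul_nonneg (by positivity) (majorant_nonneg g))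
    have hy : τ'.im ≤ formConst w * ‖pairForm w g τ'‖ := by
      obtain ⟨i, hi⟩ : ∃ i : Fin 2, (g i 0 : ℤ) ≠ 0 := by
        by_contra hcon
        push Not at hcon
        have := det_entries g
        simp [hcon 0, hcon 1] at this
      refine le_trans ?_ (norm_rowForm_le w g τ' i)
      refine le_trans ?_ (Complex.abs_im_le_norm _)
      simp only [rowForm, add_im, mul_im, intCast_re, intCast_im, zero_mul, add_zero,
        UpperHalfPlane.coe_im, abs_mul, abs_of_pos τ'.im_pos]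
      exact le_mul_of_one_le_left τ'.im_pos.le (by exact_mod_cast Int.one_le_abs hi)
    have hL : (0 : ℝ) < ‖pairForm w g τ'‖ := norm_pos_iff.mpr (pairForm_ne_zero w g τ')
    rw [hB, div_le_div_iff₀ hL τ'.im_pos]
    nlinarith [mul_le_mul_of_nonneg_left hy (by positivity : 0 ≤ 2 * w.im)]
  refine ((summable_norm_poincareTerm (by omega) w τ').tsum_le_tsum key
    ((summable_majorant.mul_left _).mul_left _)).trans (le_of_eq ?_)
  rw [tsum_mul_left, tsum_mul_left]
  ring

theorem isZeroAtImInfty_poincare {k : ℕ} (hk : 9 ≤ k) (w : ℍ) {a : SL(2, ℤ) → ℂ} {C : ℝ}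
    (ha : ∀ g, ‖a g‖ ≤ C) : IsZeroAtImInfty (poincare k w a) := by
  obtain ⟨K, hK⟩ := absSum_le_div_im hk w
  rw [isZeroAtImInfty_iff]
  intro ε hε
  refine ⟨max 1 (|C * K| / ε), fun τ hτ ↦ ?_⟩
  have h1 : 1 ≤ τ.im := le_of_max_le_left hτ
  refine (norm_poincare_le (by omega) w τ ha).trans ?_
  refine (mul_le_mul_of_nonneg_left (hK τ h1) ((norm_nonneg _).trans (ha 1))).trans ?_
  rw [← mul_div_assoc, div_le_iff₀ τ.im_pos]
  have := le_of_max_le_right hτ
  rw [div_le_iff₀ hε] at this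
  linarith [le_abs_self (C * K), mul_comm τ.im ε]

theorem isZeroAtImInfty_poincare_slash {k : ℕ} (hk : 9 ≤ k) (w : ℍ) {a : SL(2, ℤ) → ℂ} {C : ℝ}
    (ha : ∀ g, ‖a g‖ ≤ C) (h : SL(2, ℤ)) : IsZeroAtImInfty (poincare k w a ∣[(k : ℤ)] h) := by
  rw [poincare_slash]; exact isZeroAtImInfty_poincare hk w fun g ↦ ha _

lemma ratio_le_one (w : ℍ) (g : SL(2, ℤ)) : 2 * w.im / ‖pairForm w g w‖ ≤ 1 := by
  rw [div_le_one (norm_pos_iff.mpr (pairForm_ne_zero w g w)), Complex.norm_def]
  refine Real.le_sqrt_of_sq_le ?_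
  rw [normSq_pairForm]
  nlinarith [normSq_nonneg (rowForm g w 0 - (w : ℂ) * rowForm g w 1)]

lemma ratio_lt_one {w : ℍ} {g : SL(2, ℤ)} (hg : g • w ≠ w) :
    2 * w.im / ‖pairForm w g w‖ < 1 := by
  rw [div_lt_one (norm_pos_iff.mpr (pairForm_ne_zero w g w)), Complex.norm_def]
  refine Real.lt_sqrt_of_sq_lt ?_
  rw [normSq_pairForm]
  have : 0 < normSq (rowForm g w 0 - (w : ℂ) * rowForm g w 1) := by
    rw [Complex.normSq_pos, sub_ne_zero]
    intro h
    refine hg (UpperHalfPlane.ext ?_)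
    rw [coe_smul_eq_rowForm, h, mul_div_cancel_right₀ _ (rowForm_one_ne_zero g w)]
  nlinarith

theorem tendsto_poincare_self (w : ℍ) (hw : ∀ g : SL(2, ℤ), g • w = w → g = 1 ∨ g = -1)
    {a : SL(2, ℤ) → ℂ} {C : ℝ} (ha : ∀ g, ‖a g‖ ≤ C) :
    Tendsto (fun k : ℕ ↦ poincare (2 * k) w a w) atTop (𝓝 (a 1 + a (-1))) := by
  classical
  have hne : (1 : SL(2, ℤ)) ≠ -1 := by
    intro h
    have := congrArg (fun g : SL(2, ℤ) ↦ g 0 0) h
    simp at this
  have hlim : (∑' g, if g = 1 ∨ g = -1 then a g else 0) = a 1 + a (-1) := by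
    rw [tsum_eq_sum (s := {1, -1}) (fun g hg ↦ ?_), Finset.sum_pair hne]
    · simp
    · simp only [Finset.mem_insert, Finset.mem_singleton] at hg
      rw [if_neg hg]
  rw [← hlim]
  have hC : 0 ≤ C := (norm_nonneg _).trans (ha 1)
  have hB : Summable fun g ↦ C * ((2 * w.im * formConst w / r w) ^ 8 * majorant g) :=
    ((summable_majorant.mul_left ((2 * w.im * formConst w / r w) ^ 8)).mul_left C :)
  refine tendsto_tsum_of_dominated_convergence hB (fun g ↦ ?_) ?_
  · by_cases hg : g = 1 ∨ g = -1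
    · rw [if_pos hg]
      refine tendsto_const_nhds.congr fun k ↦ ?_
      have hv : (w : ℂ) - conj (w : ℂ) ≠ 0 := by
        rw [Complex.sub_conj]; simp [w.im_pos.ne']
      rcases hg with rfl | rfl
      · simp [poincareTerm, pairForm, rowForm, hv]
      · simp only [poincareTerm, pairForm, rowForm, Matrix.SpecialLinearGroup.coe_neg,
          Matrix.SpecialLinearGroup.coe_one, Matrix.neg_apply, Matrix.one_apply_eq,
          Matrix.one_apply_ne (by decide : (0 : Fin 2) ≠ 1),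
          Matrix.one_apply_ne (by decide : (1 : Fin 2) ≠ 0)]
        rw [show ((-1 : ℤ) : ℂ) * w + ((-0 : ℤ) : ℂ) - conj (w : ℂ) *
            (((-0 : ℤ) : ℂ) * w + ((-1 : ℤ) : ℂ)) = -((w : ℂ) - conj (w : ℂ)) by push_cast; ring,
          div_neg, div_self hv, pow_mul]
        simp
    · rw [if_neg hg]
      have hlt : ‖((w : ℂ) - conj (w : ℂ)) / pairForm w g w‖ < 1 := by
        have := norm_poincareTerm 1 w g w
        rw [poincareTerm, pow_one, pow_one] at this
        rw [this]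
        exact ratio_lt_one fun h ↦ hg (hw g h)
      have := ((tendsto_pow_atTop_nhds_zero_of_norm_lt_one hlt).comp
        (tendsto_id.const_mul_atTop' (by norm_num : 0 < 2))).const_mul (a g)
      simpa [poincareTerm, Function.comp_def] using this
  · filter_upwards [eventually_ge_atTop 4] with k hk g
    rw [norm_mul, norm_poincareTerm]
    refine mul_le_mul (ha g) ((pow_le_pow_of_le_one (by have := w.im_pos; positivity)
      (ratio_le_one w g) (by omega : 8 ≤ 2 * k)).trans (majorant_bound le_rfl (r_pos w)).1)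
      (pow_nonneg (by have := w.im_pos; positivity) _) hC

/-- The point `2i`, which has trivial stabiliser. -/
def basePoint : ℍ := ⟨2 * Complex.I, by simp⟩

lemma stab_basePoint (g : SL(2, ℤ)) (hg : g • basePoint = basePoint) : g = 1 ∨ g = -1 := by
  have him := congrArg UpperHalfPlane.im hg
  rw [ModularGroup.im_smul_eq_div_normSq] at him
  have hb : basePoint.im = 2 := by simp [basePoint, UpperHalfPlane.im]
  rw [hb, denom_eq_rowForm] at him
  have hn : normSq (rowForm g basePoint 1) = 4 * (g 1 0 : ℝ) ^ 2 + (g 1 1 : ℝ) ^ 2 := by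
    simp [rowForm, basePoint, normSq_apply]; ring
  rw [div_eq_iff (by simpa [Complex.normSq_pos] using rowForm_one_ne_zero g basePoint), hn] at him
  have hint : 4 * g 1 0 ^ 2 + g 1 1 ^ 2 = 1 := by
    have : (4 : ℝ) * (g 1 0 : ℝ) ^ 2 + (g 1 1 : ℝ) ^ 2 = 1 := by linarith
    exact_mod_cast this
  have hc : g 1 0 = 0 := by nlinarith [sq_nonneg (g 1 1), sq_nonneg (g 1 0)]
  have hd : g 1 1 = 1 ∨ g 1 1 = -1 := by
    rw [hc] at hint; exact sq_eq_one_iff.mp (by linarith)
  have hdet := det_entries g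
  rw [hc, mul_zero, sub_zero] at hdet
  have hre := congrArg (fun z : ℍ ↦ (z : ℂ)) hg
  simp only [coe_smul_eq_rowForm, rowForm, hc] at hre
  rw [div_eq_iff (by rcases hd with h | h <;> simp [h])] at hre
  have hb0 : g 0 1 = 0 := by
    have := congrArg Complex.re hre
    simp [basePoint] at this
    exact_mod_cast this
  rcases hd with h | h
  · left
    rw [h, mul_one] at hdet
    ext i j; fin_cases i <;> fin_cases j <;> simp [hdet, h, hc, hb0]
  · right
    rw [h] at hdet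
    have : g 0 0 = -1 := by linarith
    ext i j; fin_cases i <;> fin_cases j <;> simp [this, h, hc, hb0]

end Fermat.Agent.Poincare
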